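/-
S55-Final : descent of a bilinear pairing to quotients (pure linear algebra).
-/
import Mathlib

set_option autoImplicit false

namespace Fermat.Agent.S55

/-- A pairing on `V₁ × V₂` which kills `ker π₁`, `ker π₂` and is non degenerate modulo these kernels
descends to a non degenerate pairing on `W₁ × W₂`. -/
theorem descend_pairing {k : Type*} [Field k] {V₁ V₂ W₁ W₂ : Type*}
    [AddCommGroup V₁] [Module k V₁] [AddCommGroup V₂] [Module k V₂]
    [AddCommGroup W₁] [Module k W₁] [AddCommGroup W₂] [Module k W₂]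
    (π₁ : V₁ →ₗ[k] W₁) (π₂ : V₂ →ₗ[k] W₂)
    (hπ₁ : Function.Surjective π₁) (hπ₂ : Function.Surjective π₂)
    (β : V₁ →ₗ[k] V₂ →ₗ[k] k)
    (h1 : ∀ y x, π₁ y = 0 → β y x = 0) (h2 : ∀ y x, π₂ x = 0 → β y x = 0)
    (h3 : ∀ y, (∀ x, β y x = 0) → π₁ y = 0) (h4 : ∀ x, (∀ y, β y x = 0) → π₂ x = 0) :
    ∃ B : W₁ →ₗ[k] W₂ →ₗ[k] k,
      (∀ y, (∀ x, B y x = 0) → y = 0) ∧ (∀ x, (∀ y, B y x = 0) → x = 0) := by
  obtain ⟨s₁, hs₁⟩ := LinearMap.exists_rightInverse_of_surjective π₁ (LinearMap.range_eq_top.2 hπ₁)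
  obtain ⟨s₂, hs₂⟩ := LinearMap.exists_rightInverse_of_surjective π₂ (LinearMap.range_eq_top.2 hπ₂)
  have e₁ : ∀ w, π₁ (s₁ w) = w := fun w => LinearMap.congr_fun hs₁ w
  have e₂ : ∀ w, π₂ (s₂ w) = w := fun w => LinearMap.congr_fun hs₂ w
  have key : ∀ y x, β (s₁ (π₁ y)) (s₂ (π₂ x)) = β y x := by
    intro y x
    have a1 : β (y - s₁ (π₁ y)) x = 0 := h1 _ _ (by rw [map_sub, e₁, sub_self])
    have a2 : β (s₁ (π₁ y)) (x - s₂ (π₂ x)) = 0 := h2 _ _ (by rw [map_sub, e₂, sub_self])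
    rw [map_sub, LinearMap.sub_apply, sub_eq_zero] at a1
    rw [map_sub, sub_eq_zero] at a2
    rw [a1, a2]
  refine ⟨β.compl₁₂ s₁ s₂, fun w hw => ?_, fun w hw => ?_⟩
  · rw [← e₁ w]
    refine h3 _ fun x => ?_
    have := hw (π₂ x)
    rw [LinearMap.compl₁₂_apply] at this
    rw [← key, e₁]
    exact this
  · rw [← e₂ w]
    refine h4 _ fun y => ?_
    have := hw (π₁ y)
    rw [LinearMap.compl₁₂_apply] at this
    rw [← key, e₂]
    exact this

end Fermat.Agent.S55
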