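/-
S55-Final : dictionary between the frozen predicates (`IsLevelConstantS₁`, `levelCocyclesS₂`, ...)
and the language of `S55/Defs.lean` (pure unfolding).
-/
import Fermat.Agent.S55.Concrete

set_option autoImplicit false

open groupCohomology ExtCitation

namespace Fermat.Agent.S55

variable {p : ℕ} [Fact p.Prime]

/-! ### dictionary (pure unfolding) -/

theorem LC1_levS_iff (S : Finset Nat.Primes) {Y : Type*} (f : GQ → Y) :
    LC1 (levS S) f ↔ IsLevelConstantS₁ S f := by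
  constructor
  · rintro ⟨_, ⟨F, hF, rfl⟩, h⟩
    exact ⟨F, hF, h⟩
  · rintro ⟨F, hF, h⟩
    exact ⟨_, ⟨F, hF, rfl⟩, h⟩

theorem LC2_levS_iff (S : Finset Nat.Primes) {Y : Type*} (f : GQ × GQ → Y) :
    LC2 (levS S) f ↔ IsLevelConstantS₂ S f := by
  constructor
  · rintro ⟨_, ⟨F, hF, rfl⟩, h⟩
    exact ⟨F, hF, h⟩
  · rintro ⟨F, hF, h⟩
    exact ⟨_, ⟨F, hF, rfl⟩, h⟩

theorem LC1_levAll_comap_iff {Γ : Type} [Group Γ] (r : Γ →* GQ) {Y : Type*} (f : Γ → Y) :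
    LC1 (levAll.comap r) f ↔ IsLevelConstant₁ r f := by
  constructor
  · rintro ⟨_, ⟨_, ⟨F, hF, rfl⟩, rfl⟩, h⟩
    exact ⟨F, hF, h⟩
  · rintro ⟨F, hF, h⟩
    exact ⟨_, ⟨_, ⟨F, hF, rfl⟩, rfl⟩, h⟩

theorem LC2_levAll_comap_iff {Γ : Type} [Group Γ] (r : Γ →* GQ) {Y : Type*} (f : Γ × Γ → Y) :
    LC2 (levAll.comap r) f ↔ IsLevelConstant₂ r f := by
  constructor
  · rintro ⟨_, ⟨_, ⟨F, hF, rfl⟩, rfl⟩, h⟩
    exact ⟨F, hF, h⟩
  · rintro ⟨F, hF, h⟩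
    exact ⟨_, ⟨_, ⟨F, hF, rfl⟩, rfl⟩, h⟩

theorem Dict_d₁₂ {G : Type} [Group G] (M : Rep (ZMod p) G) : (d₁₂ M).hom = d1 M.ρ := rfl

theorem Dict_d₂₃ {G : Type} [Group G] (M : Rep (ZMod p) G) : (d₂₃ M).hom = d2 M.ρ := rfl

theorem Dict_d₀₁ {G : Type} [Group G] (M : Rep (ZMod p) G) : (d₀₁ M).hom = d0 M.ρ := rfl

theorem Dict_mem_cocycles₂ {G : Type} [Group G] (M : Rep (ZMod p) G) (f : G × G → M) :
    f ∈ cocycles₂ M ↔ d2 M.ρ f = 0 := Iff.rfl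

theorem Dict_mem_cocycles₁ {G : Type} [Group G] (M : Rep (ZMod p) G) (f : G → M) :
    f ∈ cocycles₁ M ↔ d1 M.ρ f = 0 := Iff.rfl

theorem Dict_mem_coboundaries₁ {G : Type} [Group G] (M : Rep (ZMod p) G) (f : G → M) :
    f ∈ coboundaries₁ M ↔ f ∈ B1 M.ρ := Iff.rfl

theorem mem_Z2_levS_iff (S : Finset Nat.Primes) (M : Rep (ZMod p) GQ) (f : GQ × GQ → M) :
    f ∈ Z2 (levS S) M.ρ ↔ f ∈ levelCocyclesS₂ S M := by
  rw [mem_Z2, mem_levelCocyclesS₂_iff, LC2_levS_iff, Dict_mem_cocycles₂, and_comm]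

theorem mem_B2_levS_iff (S : Finset Nat.Primes) (M : Rep (ZMod p) GQ) (f : GQ × GQ → M) :
    f ∈ B2 (levS S) M.ρ ↔ f ∈ levelCoboundariesS₂ S M := by
  rw [mem_B2, mem_levelCoboundariesS₂_iff]
  simp only [LC1_levS_iff, Dict_d₁₂]

theorem mem_B2_loc_iff {Γ : Type} [Group Γ] (r : Γ →* GQ) (M : Rep (ZMod p) GQ)
    (f : Γ × Γ → M) :
    f ∈ B2 (levAll.comap r) (M.ρ.comp r) ↔ f ∈ levelCoboundaries₂ r (Rep.res r M) := by
  rw [mem_B2, mem_levelCoboundaries₂_iff]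
  simp only [LC1_levAll_comap_iff, Dict_d₁₂]

theorem Dict_mem_Sha2 {k : Type} [CommRing k] (P : Sys) {A : Type} [AddCommGroup A] [Module k A]
    (ρ : Representation k P.G A) (f : P.G × P.G → A) :
    f ∈ Sha2 P ρ ↔ f ∈ Z2 P.lev ρ ∧
      ∀ v, res2 (k := k) (P.r v) f ∈ B2 (P.levv v) (P.loc ρ v) := by
  unfold Sha2
  rw [Submodule.mem_inf, Submodule.mem_iInf]
  rfl

theorem Dict_mem_Sha1 {k : Type} [CommRing k] (P : Sys) {A : Type} [AddCommGroup A] [Module k A]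
    (ρ : Representation k P.G A) (f : P.G → A) :
    f ∈ Sha1 P ρ ↔ f ∈ Z1 P.lev ρ ∧ ∀ v, res1 (k := k) (P.r v) f ∈ B1 (P.loc ρ v) := by
  unfold Sha1
  rw [Submodule.mem_inf, Submodule.mem_iInf]
  rfl

/-- membership in `Sha2` of the concrete system, unfolded. -/
theorem mem_Sha2_sysS_iff (S : Finset Nat.Primes) (M : Rep (ZMod p) GQ) (f : GQ × GQ → M) :
    f ∈ Sha2 (sysS S) (k := ZMod p) (A := M) M.ρ ↔
      f ∈ levelCocyclesS₂ S M ∧ ∀ q : ↥S,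
        (fun x : primeLocalGaloisGroup q.1 × primeLocalGaloisGroup q.1 =>
          f (primeLocalToGlobal q.1 x.1, primeLocalToGlobal q.1 x.2)) ∈
          levelCoboundaries₂ (primeLocalToGlobal q.1) (Rep.res (primeLocalToGlobal q.1) M) := by
  refine (Dict_mem_Sha2 (sysS S) (k := ZMod p) (A := M) M.ρ f).trans ?_
  exact and_congr (mem_Z2_levS_iff S M f)
    (forall_congr' fun q : ↥S => mem_B2_loc_iff (primeLocalToGlobal q.1) M _)

/-- membership in `Sha1` of the concrete system, unfolded. -/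
theorem mem_Sha1_sysS_iff (S : Finset Nat.Primes) (N : Rep (ZMod p) GQ) (f : GQ → N) :
    f ∈ Sha1 (sysS S) (k := ZMod p) (A := N) N.ρ ↔
      (f ∈ cocycles₁ N ∧ IsLevelConstantS₁ S f) ∧ ∀ q : ↥S,
        (fun x : primeLocalGaloisGroup q.1 => f (primeLocalToGlobal q.1 x)) ∈
          coboundaries₁ (Rep.res (primeLocalToGlobal q.1) N) := by
  refine (Dict_mem_Sha1 (sysS S) (k := ZMod p) (A := N) N.ρ f).trans ?_
  refine and_congr ?_ (forall_congr' fun q : ↥S => Iff.rfl)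
  have h : f ∈ Z1 (levS S) N.ρ ↔ f ∈ cocycles₁ N ∧ IsLevelConstantS₁ S f := by
    rw [mem_Z1, Dict_mem_cocycles₁, and_comm, LC1_levS_iff]
  exact h

end Fermat.Agent.S55
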