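/-
S55-Final : cohomology of a finite group whose order is invertible in `k` vanishes (degrees 1, 2,
explicit cochains); every cochain on a finite subgroup of `G_ℚ` is level constant;
application to the archimedean decomposition group.
-/
import Fermat.Agent.S55.Concrete

set_option autoImplicit false

open groupCohomology ExtCitation

namespace Fermat.Agent.S55

/-- averaging, degree 1. -/
theorem finite_cocycles₁_le_coboundaries₁ {k Γ : Type} [CommRing k] [Group Γ] [Finite Γ]
    (hinv : IsUnit ((Nat.card Γ : ℕ) : k)) (N : Rep k Γ) (f : Γ → N) (hf : f ∈ cocycles₁ N) :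
    f ∈ coboundaries₁ N := by
  classical
  have : Fintype Γ := Fintype.ofFinite Γ
  obtain ⟨u, hu⟩ := hinv
  rw [mem_cocycles₁_iff] at hf
  set S : N := ∑ h : Γ, f h with hS
  have key : ∀ g : Γ, N.ρ g S - S = -((Nat.card Γ : ℕ) : k) • f g := by
    intro g
    have h1 : ∑ h : Γ, f (g * h) = S := Equiv.sum_comp (Equiv.mulLeft g) f
    have h2 : ∑ h : Γ, f (g * h) = N.ρ g S + (Nat.card Γ : ℕ) • f g := by
      simp_rw [hf g]
      rw [Finset.sum_add_distrib, hS, map_sum, Finset.sum_const, Finset.card_univ,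
        Nat.card_eq_fintype_card]
    have h3 : N.ρ g S + (Nat.card Γ : ℕ) • f g = S := h2.symm.trans h1
    rw [neg_smul, Nat.cast_smul_eq_nsmul]
    have h6 : N.ρ g S - S = N.ρ g S - (N.ρ g S + (Nat.card Γ : ℕ) • f g) := by rw [h3]
    rw [h6]
    abel
  refine ⟨-((↑u⁻¹ : k) • S), ?_⟩
  funext g
  rw [d₀₁_hom_apply]
  have h4 : N.ρ g (-((↑u⁻¹ : k) • S)) - -((↑u⁻¹ : k) • S) = -((↑u⁻¹ : k) • (N.ρ g S - S)) := by
    rw [map_neg, map_smul, smul_sub]
    abel
  rw [h4, key g, ← hu, neg_smul, smul_neg, neg_neg, smul_smul, Units.inv_mul, one_smul]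

/-- averaging, degree 2. -/
theorem finite_cocycles₂_le_coboundaries₂ {k Γ : Type} [CommRing k] [Group Γ] [Finite Γ]
    (hinv : IsUnit ((Nat.card Γ : ℕ) : k)) (N : Rep k Γ) (f : Γ × Γ → N) (hf : f ∈ cocycles₂ N) :
    f ∈ coboundaries₂ N := by
  classical
  have : Fintype Γ := Fintype.ofFinite Γ
  obtain ⟨u, hu⟩ := hinv
  rw [mem_cocycles₂_iff] at hf
  set F : Γ → N := fun g => ∑ j : Γ, f (g, j) with hF
  have key : ∀ g h : Γ, N.ρ g (F h) - F (g * h) + F g = ((Nat.card Γ : ℕ) : k) • f (g, h) := by
    intro g h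
    have h1 : ∑ j : Γ, f (g, h * j) = F g :=
      Equiv.sum_comp (Equiv.mulLeft h) (fun j => f (g, j))
    have h2 : ∑ j : Γ, (f (g * h, j) + f (g, h)) = ∑ j : Γ, (N.ρ g (f (h, j)) + f (g, h * j)) :=
      Finset.sum_congr rfl fun j _ => hf g h j
    rw [Finset.sum_add_distrib, Finset.sum_add_distrib, Finset.sum_const, Finset.card_univ,
      ← Nat.card_eq_fintype_card, h1, ← map_sum] at h2
    have h3 : F (g * h) + (Nat.card Γ : ℕ) • f (g, h) = N.ρ g (F h) + F g := h2
    rw [Nat.cast_smul_eq_nsmul]
    have h5 : N.ρ g (F h) - F (g * h) + F g = (N.ρ g (F h) + F g) - F (g * h) := by abel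
    rw [h5, ← h3]
    abel
  refine ⟨(↑u⁻¹ : k) • F, ?_⟩
  funext ⟨g, h⟩
  rw [d₁₂_hom_apply]
  simp only [Pi.smul_apply, map_smul]
  rw [← smul_sub, ← smul_add, key g h, ← hu, smul_smul, Units.inv_mul, one_smul]

/-- every function on a finite group which embeds in `G_ℚ` is level constant. -/
theorem isLevelConstant₁_of_finite {Γ : Type} [Group Γ] [Finite Γ] (r : Γ →* GQ)
    (hr : Function.Injective r) {Y : Type*} (f : Γ → Y) : IsLevelConstant₁ r f := by
  classical
  have hex : ∀ s : Γ, ∃ x : AlgebraicClosure ℚ, s ≠ 1 → r s x ≠ x := by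
    intro s
    by_cases hs : s = 1
    · exact ⟨0, fun h => absurd hs h⟩
    · have hrs : r s ≠ 1 := fun h => hs (hr (h.trans (map_one r).symm))
      have : ∃ x, r s x ≠ x := by
        by_contra hcon
        exact hrs (AlgEquiv.ext fun y => by
          by_contra hy
          exact hcon ⟨y, hy⟩)
      obtain ⟨x, hx⟩ := this
      exact ⟨x, fun _ => hx⟩
  choose x hx using hex
  have hfin : (Set.range x).Finite := Set.finite_range x
  refine ⟨IntermediateField.adjoin ℚ (Set.range x), ?_, fun g s hs => ?_⟩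
  · have : Finite (Set.range x) := hfin
    exact IntermediateField.finiteDimensional_adjoin
      (fun y _ => ((AlgebraicClosure.isAlgebraic ℚ).isAlgebraic y).isIntegral)
  · have hs1 : s = 1 := by
      by_contra hne
      apply hx s hne
      have := (IntermediateField.mem_fixingSubgroup_iff _ _).1 hs (x s)
        (IntermediateField.subset_adjoin ℚ _ ⟨s, rfl⟩)
      exact this
    rw [hs1, mul_one]

theorem finite_archimedeanDecomposition : Finite ↥archimedeanDecomposition := by
  have h : IsOfFinOrder complexConjugation :=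
    isOfFinOrder_iff_pow_eq_one.2 ⟨2, by norm_num, complexConjugation_sq⟩
  exact (finite_zpowers).2 h

/-- the order of the archimedean decomposition group divides 2. -/
theorem card_archimedeanDecomposition_dvd : Nat.card ↥archimedeanDecomposition ∣ 2 := by
  have : Nat.card ↥archimedeanDecomposition = orderOf complexConjugation := Nat.card_zpowers _
  rw [this]
  exact orderOf_dvd_of_pow_eq_one complexConjugation_sq

variable {p : ℕ} [Fact p.Prime]

theorem FiniteGroup_isUnit_card (hp2 : p ≠ 2) :
    IsUnit ((Nat.card ↥archimedeanDecomposition : ℕ) : ZMod p) := by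
  have hp : p.Prime := Fact.out
  have hd := card_archimedeanDecomposition_dvd
  have hcop : Nat.Coprime (Nat.card ↥archimedeanDecomposition) p := by
    have h2 : Nat.Coprime 2 p := by
      rw [Nat.coprime_primes Nat.prime_two hp]
      exact fun h => hp2 h.symm
    exact Nat.Coprime.coprime_dvd_left hd h2
  exact (ZMod.isUnit_iff_coprime _ _).2 hcop

/-- `H¹` of the archimedean group vanishes for `p` odd. -/
theorem arch_H1_eq_zero (hp2 : p ≠ 2) (N : Rep (ZMod p) GQ)
    (x : H1 (Rep.res archimedeanLoc N)) : x = 0 := by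
  have := finite_archimedeanDecomposition
  induction x using H1_induction_on with
  | h c =>
    rw [H1π_eq_zero_iff]
    exact finite_cocycles₁_le_coboundaries₁ (FiniteGroup_isUnit_card hp2) _ _ c.2

/-- the continuous `H²` of the archimedean group vanishes for `p` odd. -/
theorem arch_continuousH2_eq_zero (hp2 : p ≠ 2) (N : Rep (ZMod p) GQ)
    (x : continuousH2 archimedeanLoc (Rep.res archimedeanLoc N)) : x = 0 := by
  have := finite_archimedeanDecomposition
  obtain ⟨c, rfl⟩ := Submodule.Quotient.mk_surjective _ x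
  have h := (continuousH2π_eq_zero_iff archimedeanLoc (Rep.res archimedeanLoc N) c).2 (by
    rw [mem_levelCoboundaries₂_iff]
    obtain ⟨y, hy⟩ := finite_cocycles₂_le_coboundaries₂ (FiniteGroup_isUnit_card hp2)
      (Rep.res archimedeanLoc N) _ c.2.1
    exact ⟨y, isLevelConstant₁_of_finite archimedeanLoc Subtype.val_injective y, hy⟩)
  exact h

end Fermat.Agent.S55
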