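/-
S55-Final : the frozen `sha₁`, `sha₂` are the quotients `Sha1 / B1`, `Sha2 / B2` of module T
(for the concrete system `sysS S`).
-/
import Fermat.Agent.S55.Final.FiniteGroup
import Fermat.Agent.S55.Final.Dict

set_option autoImplicit false

open groupCohomology ExtCitation

namespace Fermat.Agent.S55

variable {p : ℕ} [Fact p.Prime]

/-! ### the two projections -/

/-- `Sha2 / B2 ≅ sha₂`. -/
theorem exists_pi₂ (hp2 : p ≠ 2) (S : Finset Nat.Primes) (M : Rep (ZMod p) GQ) :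
    ∃ π : ↥(Sha2 (sysS S) (k := ZMod p) (A := M) M.ρ) →ₗ[ZMod p] ↥(sha₂ S M),
      Function.Surjective π ∧
        ∀ x, π x = 0 ↔ x.1 ∈ B2 (levS S) M.ρ := by
  have hle : ∀ f : GQ × GQ → M, f ∈ Sha2 (sysS S) (k := ZMod p) (A := M) M.ρ →
      f ∈ levelCocyclesS₂ S M := fun f hf => ((mem_Sha2_sysS_iff S M f).1 hf).1
  -- local restriction of a class
  have hloc : ∀ (c : ↥(levelCocyclesS₂ S M)) (q : ↥S),
      locRes₂S S M (primeLocalToGlobal q.1) (continuousH2Sπ S M c) = 0 ↔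
        (fun x : primeLocalGaloisGroup q.1 × primeLocalGaloisGroup q.1 =>
          (c : GQ × GQ → M) (primeLocalToGlobal q.1 x.1, primeLocalToGlobal q.1 x.2)) ∈
          levelCoboundaries₂ (primeLocalToGlobal q.1) (Rep.res (primeLocalToGlobal q.1) M) := by
    intro c q
    exact continuousH2π_eq_zero_iff (primeLocalToGlobal q.1)
      (Rep.res (primeLocalToGlobal q.1) M) _
  have hsha : ∀ c : ↥(levelCocyclesS₂ S M), continuousH2Sπ S M c ∈ sha₂ S M ↔
      (c : GQ × GQ → M) ∈ Sha2 (sysS S) (k := ZMod p) (A := M) M.ρ := by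
    intro c
    rw [mem_Sha2_sysS_iff]
    constructor
    · intro h
      refine ⟨c.2, fun q => (hloc c q).1 ?_⟩
      exact congrFun (LinearMap.mem_ker.1 h) (Sum.inr q)
    · intro h
      refine LinearMap.mem_ker.2 (funext fun v => ?_)
      rcases v with u | q
      · exact arch_continuousH2_eq_zero hp2 M _
      · exact (hloc c q).2 (h.2 q)
  let π₀ : ↥(Sha2 (sysS S) (k := ZMod p) (A := M) M.ρ) →ₗ[ZMod p] continuousH2S S M :=
    { toFun := fun x => continuousH2Sπ S M ⟨x.1, hle x.1 x.2⟩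
      map_add' := fun x y => rfl
      map_smul' := fun c x => rfl }
  refine ⟨LinearMap.codRestrict (sha₂ S M) π₀
    (fun x => (hsha ⟨x.1, hle x.1 x.2⟩).2 x.2), ?_, ?_⟩
  · rintro ⟨y, hy⟩
    obtain ⟨c, rfl⟩ := Submodule.mkQ_surjective _ y
    exact ⟨⟨c.1, (hsha c).1 hy⟩, Subtype.ext rfl⟩
  · intro x
    refine Iff.trans ?_ (mem_B2_levS_iff S M x.1).symm
    refine Iff.trans ?_ (continuousH2Sπ_eq_zero_iff S M ⟨x.1, hle x.1 x.2⟩)
    constructor
    · intro h
      exact congrArg Subtype.val h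
    · intro h
      exact Subtype.ext h

/-- `Sha1 / B1 ≅ sha₁`. -/
theorem exists_pi₁ (hp2 : p ≠ 2) (S : Finset Nat.Primes) (N : Rep (ZMod p) GQ) :
    ∃ π : ↥(Sha1 (sysS S) (k := ZMod p) (A := N) N.ρ) →ₗ[ZMod p] ↥(sha₁ S N),
      Function.Surjective π ∧
        ∀ y, π y = 0 ↔ y.1 ∈ B1 N.ρ := by
  have hle : ∀ f : GQ → N, f ∈ Sha1 (sysS S) (k := ZMod p) (A := N) N.ρ →
      f ∈ cocycles₁ N := fun f hf => ((mem_Sha1_sysS_iff S N f).1 hf).1.1
  have hB1 : ∀ f : GQ → N, f ∈ B1 N.ρ ↔ f ∈ coboundaries₁ N := by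
    intro f
    constructor
    · rintro ⟨a, rfl⟩
      exact ⟨a, rfl⟩
    · rintro ⟨a, rfl⟩
      exact ⟨a, rfl⟩
  have hloc : ∀ (c : cocycles₁ N) (q : ↥S),
      (locRes (extArithLoc S) N (Sum.inr q)).hom ((H1π N).hom c) = 0 ↔
        (fun x : primeLocalGaloisGroup q.1 => (c : GQ → N) (primeLocalToGlobal q.1 x)) ∈
          coboundaries₁ (Rep.res (primeLocalToGlobal q.1) N) := by
    intro c q
    have h1 : (locRes (extArithLoc S) N (Sum.inr q)).hom ((H1π N).hom c) =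
        (H1π (Rep.res (primeLocalToGlobal q.1) N)).hom
          ((mapCocycles₁ (primeLocalToGlobal q.1)
            (CategoryTheory.CategoryStruct.id (Rep.res (primeLocalToGlobal q.1) N))).hom c) :=
      H1π_comp_map_apply (primeLocalToGlobal q.1)
        (CategoryTheory.CategoryStruct.id (Rep.res (primeLocalToGlobal q.1) N)) c
    rw [h1]
    exact H1π_eq_zero_iff _
  have hsha : ∀ c : cocycles₁ N, IsLevelConstantS₁ S (c : GQ → N) →
      ((H1π N).hom c ∈ LinearMap.ker (locTotal (extArithLoc S) N) ↔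
      (c : GQ → N) ∈ Sha1 (sysS S) (k := ZMod p) (A := N) N.ρ) := by
    intro c hc
    rw [mem_Sha1_sysS_iff]
    constructor
    · intro h
      refine ⟨⟨c.2, hc⟩, fun q => (hloc c q).1 ?_⟩
      exact congrFun (LinearMap.mem_ker.1 h) (Sum.inr q)
    · intro h
      refine LinearMap.mem_ker.2 (funext fun v => ?_)
      rcases v with u | q
      · exact arch_H1_eq_zero hp2 N _
      · exact (hloc c q).2 (h.2 q)
  let π₀ : ↥(Sha1 (sysS S) (k := ZMod p) (A := N) N.ρ) →ₗ[ZMod p] H1 N :=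
    (H1π N).hom ∘ₗ
      { toFun := fun x => (⟨x.1, hle x.1 x.2⟩ : cocycles₁ N)
        map_add' := fun x y => rfl
        map_smul' := fun c x => rfl }
  refine ⟨LinearMap.codRestrict (sha₁ S N) π₀ (fun x => ?_), ?_, ?_⟩
  · have hx := (mem_Sha1_sysS_iff S N x.1).1 x.2
    exact ⟨(mem_continuousH1S_iff S N _).2 ⟨⟨x.1, hle x.1 x.2⟩, hx.1.2, rfl⟩,
      (hsha ⟨x.1, hle x.1 x.2⟩ hx.1.2).2 x.2⟩
  · rintro ⟨y, hy1, hy2⟩
    obtain ⟨c, hc, rfl⟩ := (mem_continuousH1S_iff S N y).1 hy1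
    exact ⟨⟨c.1, (hsha c hc).1 hy2⟩, Subtype.ext rfl⟩
  · intro x
    refine Iff.trans ?_ (hB1 x.1).symm
    refine Iff.trans ?_ (H1π_eq_zero_iff (⟨x.1, hle x.1 x.2⟩ : cocycles₁ N))
    constructor
    · intro h
      exact congrArg Subtype.val h
    · intro h
      exact Subtype.ext h

end Fermat.Agent.S55
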