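/-
S55-Final : bridge from the abstract theorem of module T to the frozen statement (definitions).
-/
import Fermat.Agent.S55.Concrete

set_option autoImplicit false

open groupCohomology ExtCitation

namespace Fermat.Agent.S55

/-- The output of the formal machine for a dual pair `D`: a pairing `Sha¹(B) × Sha²(A) → k`
(on cocycles) which vanishes on coboundaries and is non degenerate modulo coboundaries. -/
def MainOut {k : Type} [Field k] (P : Sys) {ρμ : Representation k P.G k}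
    (D : DualPair k P.G ρμ) : Prop :=
  ∃ β : ↥(Sha1 P D.ρB) →ₗ[k] ↥(Sha2 P D.ρA) →ₗ[k] k,
    (∀ (y : ↥(Sha1 P D.ρB)) (x : ↥(Sha2 P D.ρA)), (y : P.G → D.B) ∈ B1 D.ρB → β y x = 0) ∧
    (∀ (y : ↥(Sha1 P D.ρB)) (x : ↥(Sha2 P D.ρA)),
      (x : P.G × P.G → D.A) ∈ B2 P.lev D.ρA → β y x = 0) ∧
    (∀ y : ↥(Sha1 P D.ρB), (∀ x, β y x = 0) → (y : P.G → D.B) ∈ B1 D.ρB) ∧
    (∀ x : ↥(Sha2 P D.ρA), (∀ y, β y x = 0) → (x : P.G × P.G → D.A) ∈ B2 P.lev D.ρA)

variable {p : ℕ} [Fact p.Prime]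

/-- the dual pair `(M, M^*(1))` attached to a frozen `Rep`. -/
noncomputable def dualPairGQ (M : Rep (ZMod p) GQ)
    [FiniteDimensional (ZMod p) M] : DualPair (ZMod p) GQ (muRep p) where
  A := M
  B := Module.Dual (ZMod p) M
  ρA := M.ρ
  ρB := (M.dualTwist (cycloChar p)).ρ
  φ := Module.Dual.eval (ZMod p) M
  equiv g a b := by
    change ((cycloChar p g : (ZMod p)ˣ) : ZMod p) • (b ∘ₗ M.ρ g⁻¹) (M.ρ g a) = _
    rw [LinearMap.comp_apply, ← Module.End.mul_apply, ← map_mul, inv_mul_cancel, map_one]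
    rfl
  left a h := (Module.forall_dual_apply_eq_zero_iff (ZMod p) a).1 h
  right b h := LinearMap.ext h

/-- the same dual pair, over the group of the concrete system `sysS S`. -/
noncomputable def dualPairOf (S : Finset Nat.Primes) (M : Rep (ZMod p) GQ)
    [FiniteDimensional (ZMod p) M] : DualPair (ZMod p) (sysS S).G (muRep p) :=
  dualPairGQ M

end Fermat.Agent.S55
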