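/-
S55-Final : the dual pair `(M, M^*(1))` of the frozen statement is smooth for the `S`-levels.
-/
import Fermat.Agent.S55.Final.Defs

set_option autoImplicit false

open groupCohomology ExtCitation

namespace Fermat.Agent.S55

variable {p : ℕ} [Fact p.Prime]

/-- a normal subgroup `N` of `G_ℚ` containing some `G_F` (`F/ℚ` finite) and all inertia groups
outside `S` contains (in fact is) an `S`-level. -/
theorem exists_sLevel_le (S : Finset Nat.Primes) (N : Subgroup GQ)
    (hopen : ∃ F : IntermediateField ℚ (AlgebraicClosure ℚ), FiniteDimensional ℚ F ∧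
      F.fixingSubgroup ≤ N)
    (hur : ∀ q : Nat.Primes, q ∉ S → ∀ A : ValuationSubring (AlgebraicClosure ℚ),
      A.LiesOverPrime (q : ℕ) → A.inertiaSubgroupIn ℚ ≤ N) :
    ∃ U ∈ (levS S).mem, U ≤ N := by
  obtain ⟨F, hF, hFN⟩ := hopen
  have : Algebra.IsAlgebraic ℚ (AlgebraicClosure ℚ) := AlgebraicClosure.isAlgebraic ℚ
  have : Normal ℚ (AlgebraicClosure ℚ) := SH.gqLevels_normal_Qb
  have : IsGalois ℚ (AlgebraicClosure ℚ) := ⟨⟩
  have hNopen : IsOpen (N : Set GQ) :=
    Subgroup.isOpen_mono hFN (IntermediateField.fixingSubgroup_isOpen F)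
  have hNclosed : IsClosed (N : Set GQ) := Subgroup.isClosed_of_isOpen N hNopen
  have hfix : (IntermediateField.fixedField N).fixingSubgroup = N :=
    InfiniteGalois.fixingSubgroup_fixedField ⟨N, hNclosed⟩
  have hle : IntermediateField.fixedField N ≤ F := by
    intro x hx
    rw [← InfiniteGalois.fixedField_fixingSubgroup F, IntermediateField.mem_fixedField_iff]
    intro σ hσ
    exact (IntermediateField.mem_fixedField_iff N x).1 hx σ (hFN hσ)
  refine ⟨(IntermediateField.fixedField N).fixingSubgroup,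
    ⟨IntermediateField.fixedField N, ⟨?_, ?_⟩, rfl⟩, hfix.le⟩
  · exact FiniteDimensional.of_injective (IntermediateField.inclusion hle).toLinearMap
      (IntermediateField.inclusion_injective hle)
  · intro q hq A hA
    rw [hfix]
    exact hur q hq A hA

/-- `M` is trivial on an `S`-level. -/
theorem smooth_of_frozen (S : Finset Nat.Primes) (M : Rep (ZMod p) GQ)
    [FiniteDimensional (ZMod p) M]
    (hsm : ∀ m : M, ∃ F : IntermediateField ℚ (AlgebraicClosure ℚ), FiniteDimensional ℚ F ∧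
      ∀ s ∈ F.fixingSubgroup, M.ρ s m = m)
    (hMur : ∀ q : Nat.Primes, q ∉ S → ∀ A : ValuationSubring (AlgebraicClosure ℚ),
      A.LiesOverPrime (q : ℕ) → ∀ g ∈ A.inertiaSubgroupIn ℚ, M.ρ g = 1) :
    Smooth M.ρ (levS S) := by
  have hfin : Finite M := Module.finite_of_finite (ZMod p)
  choose Fm hFm1 hFm2 using hsm
  have hfd : ∀ m, FiniteDimensional ℚ (Fm m) := hFm1
  obtain ⟨U, hU, hUN⟩ := exists_sLevel_le S (MonoidHom.ker M.ρ)
    ⟨⨆ m, Fm m, IntermediateField.finiteDimensional_iSup_of_finite, by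
      intro s hs
      rw [MonoidHom.mem_ker]
      apply LinearMap.ext
      intro m
      exact hFm2 m s (IntermediateField.fixingSubgroup_antitone (le_iSup Fm m) hs)⟩
    (fun q hq A hA g hg => MonoidHom.mem_ker.2 (hMur q hq A hA g hg))
  exact ⟨U, hU, fun s hs => MonoidHom.mem_ker.1 (hUN hs)⟩

/-- the twisted dual is trivial on an `S`-level. -/
theorem smooth_dualTwist (S : Finset Nat.Primes) (M : Rep (ZMod p) GQ)
    (hM : Smooth M.ρ (levS S)) (hμ : Smooth (muRep p) (levS S)) :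
    Smooth (M.dualTwist (cycloChar p)).ρ (levS S) := by
  obtain ⟨U, hU, hUM⟩ := hM
  obtain ⟨U', hU', hUμ⟩ := hμ
  obtain ⟨W, hW, hWU, hWU'⟩ := (levS S).directed U hU U' hU'
  refine ⟨W, hW, fun s hs => ?_⟩
  apply LinearMap.ext
  intro f
  rw [Rep.dualTwist_ρ_apply, hUM s⁻¹ (inv_mem (hWU hs))]
  have h1 : ((cycloChar p s : (ZMod p)ˣ) : ZMod p) = 1 := by
    have h2 := congrArg (fun φ : ZMod p →ₗ[ZMod p] ZMod p => φ 1) (hUμ s (hWU' hs))
    simpa using h2
  rw [h1, one_smul]
  rfl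

theorem dualPairOf_isSmooth (S : Finset Nat.Primes) (M : Rep (ZMod p) GQ)
    [FiniteDimensional (ZMod p) M] (hμ : Smooth (muRep p) (levS S))
    (hsm : ∀ m : M, ∃ F : IntermediateField ℚ (AlgebraicClosure ℚ), FiniteDimensional ℚ F ∧
      ∀ s ∈ F.fixingSubgroup, M.ρ s m = m)
    (hMur : ∀ q : Nat.Primes, q ∉ S → ∀ A : ValuationSubring (AlgebraicClosure ℚ),
      A.LiesOverPrime (q : ℕ) → ∀ g ∈ A.inertiaSubgroupIn ℚ, M.ρ g = 1) :
    (dualPairOf S M).IsSmooth (sysS S).lev :=
  ⟨smooth_of_frozen S M hsm hMur, smooth_dualTwist S M (smooth_of_frozen S M hsm hMur) hμ⟩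

end Fermat.Agent.S55
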