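/-
S55-Final : from `MainOut` (module T) to the conclusion of the frozen statement.
-/
import Fermat.Agent.S55.Final.Pi
import Fermat.Agent.S55.Final.LinAlg
import Fermat.Agent.S55.Final.Smooth

set_option autoImplicit false

open groupCohomology ExtCitation

namespace Fermat.Agent.S55

variable {p : ℕ} [Fact p.Prime]

theorem MainOut.descend {k : Type} [Field k] {P : Sys} {ρμ : Representation k P.G k}
    {D : DualPair k P.G ρμ} (h : MainOut P D) {W₁ W₂ : Type}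
    [AddCommGroup W₁] [Module k W₁] [AddCommGroup W₂] [Module k W₂]
    (h₁ : ∃ π : ↥(Sha1 P D.ρB) →ₗ[k] W₁, Function.Surjective π ∧ ∀ y, π y = 0 ↔ y.1 ∈ B1 D.ρB)
    (h₂ : ∃ π : ↥(Sha2 P D.ρA) →ₗ[k] W₂, Function.Surjective π ∧
      ∀ x, π x = 0 ↔ x.1 ∈ B2 P.lev D.ρA) :
    ∃ B : W₁ →ₗ[k] W₂ →ₗ[k] k,
      (∀ y, (∀ x, B y x = 0) → y = 0) ∧ (∀ x, (∀ y, B y x = 0) → x = 0) := by
  obtain ⟨β, h1, h2, h3, h4⟩ := h
  obtain ⟨π₁, hs₁, hk₁⟩ := h₁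
  obtain ⟨π₂, hs₂, hk₂⟩ := h₂
  exact descend_pairing π₁ π₂ hs₁ hs₂ β
    (fun y x hy => h1 y x ((hk₁ y).1 hy)) (fun y x hx => h2 y x ((hk₂ x).1 hx))
    (fun y hy => (hk₁ y).2 (h3 y hy)) (fun x hx => (hk₂ x).2 (h4 x hx))

theorem final_bridge (hp2 : p ≠ 2) (S : Finset Nat.Primes) (M : Rep (ZMod p) GQ)
    [FiniteDimensional (ZMod p) M] (h : MainOut (sysS S) (dualPairOf S M)) :
    ∃ B : sha₁ S (M.dualTwist (cycloChar p)) →ₗ[ZMod p] sha₂ S M →ₗ[ZMod p] ZMod p,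
      (∀ y, (∀ x, B y x = 0) → y = 0) ∧ (∀ x, (∀ y, B y x = 0) → x = 0) :=
  h.descend (exists_pi₁ hp2 S (M.dualTwist (cycloChar p))) (exists_pi₂ hp2 S M)

end Fermat.Agent.S55
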